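import Mathlib.NumberTheory.Zsqrtd.Basic
import Mathlib.Tactic

/-!
# The second coordinate of an odd power of `a + √-d`

For even `a` and `d + 1 = 2 ^ e · odd`, `e ≥ 3` odd, the powers of `(a + √-d)²` differ from `1` by
an exact power of two, so the second coordinate of an odd power `≥ 3` of `a + √-d` is never `± 1`.
-/

set_option autoImplicit false

noncomputable section

namespace FA.RamanujanNagell

variable {d : ℤ}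

/-- `w ≡ 1 + 2 ^ F t` and `im w ≡ 0` to precisions `F + 1` and `G`. -/
def TwoApprox (F G : ℕ) (t : ℤ) (w : ℤ√d) : Prop :=
  (2 : ℤ) ^ (F + 1) ∣ w.re - 1 - 2 ^ F * t ∧ (2 : ℤ) ^ G ∣ w.im

theorem TwoApprox.mul {F G : ℕ} (hF : 1 ≤ F) (hG : F + 1 ≤ 2 * G) {t t' : ℤ} {w w' : ℤ√d}
    (h : TwoApprox F G t w) (h' : TwoApprox F G t' w') : TwoApprox F G (t + t') (w * w') := by
  obtain ⟨⟨u, hu⟩, v, hv⟩ := h
  obtain ⟨⟨u', hu'⟩, v', hv'⟩ := h'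
  obtain ⟨s, hs⟩ : (2 : ℤ) ^ (F + 1) ∣ 2 ^ (2 * G) := pow_dvd_pow 2 hG
  obtain ⟨r, hr⟩ : (2 : ℤ) ∣ 2 ^ F := dvd_pow_self 2 (by omega)
  have e : w.re = 1 + 2 ^ F * t + 2 ^ (F + 1) * u := by linarith
  have e' : w'.re = 1 + 2 ^ F * t' + 2 ^ (F + 1) * u' := by linarith
  refine ⟨⟨u + u' + r * t * t' + 2 ^ F * (t * u' + u * t') + 2 ^ (F + 1) * u * u' +
    d * s * v * v', ?_⟩, ?_⟩
  · rw [Zsqrtd.re_mul, e, e', hv, hv']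
    linear_combination (d * v * v') * hs + (2 ^ F * t * t') * hr
  · rw [Zsqrtd.im_mul]
    exact dvd_add (Dvd.dvd.mul_left ⟨v', hv'⟩ _) (Dvd.dvd.mul_right ⟨v, hv⟩ _)

theorem TwoApprox.pow {F G : ℕ} (hF : 1 ≤ F) (hG : F + 1 ≤ 2 * G) {t : ℤ} {w : ℤ√d}
    (h : TwoApprox F G t w) : ∀ n : ℕ, TwoApprox F G (n * t) (w ^ n)
  | 0 => by simp [TwoApprox]
  | n + 1 => by
    rw [pow_succ, Nat.cast_succ, add_one_mul]
    exact (TwoApprox.pow hF hG h n).mul hF hG h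

theorem TwoApprox.sq {F G : ℕ} (hF : 2 ≤ F) (hG : F + 2 ≤ 2 * G) {w : ℤ√d}
    (h : TwoApprox F G 1 w) : TwoApprox (F + 1) (G + 1) 1 (w ^ 2) := by
  obtain ⟨⟨u, hu⟩, v, hv⟩ := h
  obtain ⟨s, hs⟩ : (2 : ℤ) ^ (F + 2) ∣ 2 ^ (2 * G) := pow_dvd_pow 2 hG
  obtain ⟨r, hr⟩ : (2 : ℤ) ^ 2 ∣ 2 ^ F := pow_dvd_pow 2 hF
  have e : w.re = 1 + 2 ^ F + 2 ^ (F + 1) * u := by linarith
  refine ⟨⟨u + r + 4 * r * u + 4 * r * u ^ 2 + d * s * v ^ 2, ?_⟩, ?_⟩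
  · rw [pow_two, Zsqrtd.re_mul, e, hv]
    linear_combination (d * v ^ 2) * hs + (2 ^ F * (1 + 4 * u + 4 * u ^ 2)) * hr
  · rw [pow_two, Zsqrtd.im_mul, hv]
    exact ⟨v * w.re, by ring⟩

theorem TwoApprox.two_pow {F G : ℕ} (hF : 2 ≤ F) (hG : F + 2 ≤ 2 * G) {w : ℤ√d}
    (h : TwoApprox F G 1 w) : ∀ i : ℕ, TwoApprox (F + i) (G + i) 1 (w ^ 2 ^ i)
  | 0 => by simpa using h
  | i + 1 => by
    rw [pow_succ, pow_mul]
    exact (TwoApprox.two_pow hF hG h i).sq (by omega) (by omega)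

/-- **An odd power `≥ 3` of `a + √-d` has second coordinate other than `± 1`.** -/
theorem im_pow_ne {a : ℤ} {f α : ℕ} (hf : 2 ≤ f) (hfα : f ≤ 2 * α) (ha : (2 : ℤ) ^ α ∣ a)
    (hc : (2 : ℤ) ^ (f + 1) ∣ a ^ 2 + d - 1 - 2 ^ f) {m : ℕ} (hm : 0 < m) :
    ((⟨a, 1⟩ : ℤ√d) ^ (2 * m + 1)).im ≠ 1 ∧ ((⟨a, 1⟩ : ℤ√d) ^ (2 * m + 1)).im ≠ -1 := by
  obtain ⟨i, o, ho, rfl⟩ := Nat.exists_eq_pow_mul_and_not_dvd (n := m) (by omega) 2 (by norm_num)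
  obtain ⟨a', rfl⟩ := ha
  have hsq : TwoApprox f (α + 1) 1 ((⟨2 ^ α * a', 1⟩ : ℤ√d) ^ 2) := by
    rw [pow_two]
    refine ⟨?_, a', ?_⟩
    · rw [Zsqrtd.re_mul]
      simpa [pow_two] using hc
    · rw [Zsqrtd.im_mul]
      simp only
      ring
  have h := (hsq.two_pow hf (by omega) i).pow (by omega) (by omega) o
  rw [← pow_mul, ← pow_mul] at h
  obtain ⟨⟨u, hu⟩, v, hv⟩ := h
  rw [pow_succ, Zsqrtd.im_mul]
  simp only [mul_one]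
  obtain ⟨q, rfl⟩ : ∃ q, o = 2 * q + 1 := ⟨o / 2, by omega⟩
  obtain ⟨s, hs⟩ : (2 : ℤ) ^ (f + i + 1) ∣ 2 ^ (α + 1 + i + α) := pow_dvd_pow 2 (by omega)
  set R := ((⟨2 ^ α * a', 1⟩ : ℤ√d) ^ (2 * (2 ^ i * (2 * q + 1)))).re
  set I := ((⟨2 ^ α * a', 1⟩ : ℤ√d) ^ (2 * (2 ^ i * (2 * q + 1)))).im
  have key : R + I * (2 ^ α * a') = 1 + 2 ^ (f + i) * (2 * (q + u + s * v * a') + 1) := by
    push_cast at hu
    rw [hv]
    linear_combination hu + (v * a') * hs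
  obtain ⟨r, hr⟩ : (2 : ℤ) ^ 2 ∣ 2 ^ (f + i) := pow_dvd_pow 2 (by omega)
  have h4 : (4 : ℤ) ∣ R + I * (2 ^ α * a') - 1 := ⟨r * (2 * (q + u + s * v * a') + 1), by
    rw [key, hr]; ring⟩
  have hne : R + I * (2 ^ α * a') ≠ 1 := fun e => by
    rw [e] at key
    have : (2 * (q + u + s * v * a') + 1 : ℤ) = 0 :=
      (mul_eq_zero.1 (left_eq_add.1 key)).resolve_left (pow_ne_zero _ two_ne_zero)
    omega
  exact ⟨hne, fun e => by rw [e] at h4; norm_num at h4⟩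

/-- The same from the valuation of `d + 1`: even `a`, `e ≥ 3` odd. -/
theorem im_pow_ne_of_odd_valuation {d : ℕ} {e o : ℕ} (he : Odd e) (he3 : 3 ≤ e)
    (hd : d + 1 = 2 ^ e * o) (ho : Odd o) {a : ℤ} (ha : 2 ∣ a) {m : ℕ} (hm : 0 < m) :
    ((⟨a, 1⟩ : ℤ√(-(d : ℤ))) ^ (2 * m + 1)).im ≠ 1 ∧
      ((⟨a, 1⟩ : ℤ√(-(d : ℤ))) ^ (2 * m + 1)).im ≠ -1 := by
  obtain ⟨q, rfl⟩ := ho
  have hd' : (d : ℤ) + 1 = 2 ^ e * (2 * q + 1) := by exact_mod_cast hd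
  obtain ⟨k, rfl⟩ := he
  by_cases hbig : (2 : ℤ) ^ (k + 1) ∣ a
  · -- `d + 1` decides
    obtain ⟨r, hr⟩ := hbig
    refine im_pow_ne (f := 2 * k + 1) (α := k + 1) (by omega) (by omega) ⟨r, hr⟩ ⟨?_, ?_⟩ hm
    · exact r ^ 2 - q - 1
    · rw [hr]
      linear_combination -hd'
  · -- `a²` decides
    obtain ⟨α, a', ha', rfl⟩ : ∃ (α : ℕ) (a' : ℤ), ¬ 2 ∣ a' ∧ a = 2 ^ α * a' := by
      have hne : a ≠ 0 := fun h => hbig (h ▸ dvd_zero _)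
      obtain ⟨α, a', ha', h⟩ := (FiniteMultiplicity.of_prime_left Int.prime_two hne).exists_eq_pow_mul_and_not_dvd |> fun ⟨c, hc, hc'⟩ => (⟨_, c, hc', hc⟩ : ∃ (α : ℕ) (a' : ℤ), ¬ 2 ∣ a' ∧ a = 2 ^ α * a')
      exact ⟨α, a', ha', h⟩
    have hα : α ≤ k := by
      by_contra hc
      exact hbig ((pow_dvd_pow 2 (by omega)).mul_right _)
    have hα1 : 1 ≤ α := by
      rcases α with _ | α
      · simp at ha; exact absurd ha ha'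
      · omega
    obtain ⟨b, rfl⟩ : ∃ b, a' = 2 * b + 1 := ⟨a' / 2, by omega⟩
    obtain ⟨s, hs⟩ : (2 : ℤ) ^ (2 * α + 1) ∣ 2 ^ (2 * k + 1) := pow_dvd_pow 2 (by omega)
    refine im_pow_ne (f := 2 * α) (α := α) (by omega) le_rfl ⟨2 * b + 1, rfl⟩
      ⟨2 * b ^ 2 + 2 * b - s * (2 * q + 1), ?_⟩ hm
    linear_combination -hd' - (2 * (q : ℤ) + 1) * hs

end FA.RamanujanNagell
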