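import Fermat.Agent.Tau.LebesgueNagell
import Fermat.Agent.RamanujanNagell.OddPowers

/-!
# `x² + d = y ^ n` with odd `y`, `d ≡ 7 (mod 8)`

In `K = ℚ(√-d)` the conjugates `x ± √-d` are coprime, so for `n` prime to the class number
`x + √-d = ± γ ^ n`. An odd `y` makes the coordinates of `γ` integers, so `x + √-d` is, up to sign
and conjugation, an `n`-th power of `a + √-d` with even `a`.
-/

set_option autoImplicit false
set_option linter.style.haveILetI false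

noncomputable section

namespace FA.RamanujanNagell

open NumberField Module
open scoped nonZeroDivisors

variable {K : Type*} [Field K] [NumberField K] {d : ℕ} {s : K}

/-- The units are `± 1`. -/
theorem unit_eq (hK : finrank ℚ K = 2) (hd : Squarefree d) (hd7 : 7 ≤ d)
    (hs : s ^ 2 = -(d : K)) (u : (𝓞 K)ˣ) : (u : 𝓞 K) = 1 ∨ (u : 𝓞 K) = -1 := by
  have hdz : Squarefree (-(d : ℤ)) := Int.squarefree_natAbs.1 (by simpa using hd)
  have hs' : s ^ 2 = ((-(d : ℤ) : ℤ) : K) := by push_cast; exact hs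
  obtain ⟨A, B, N, h1, hN⟩ := FA.FieldClassBound.exists_double_coord hK hdz (by omega) hs' (u : 𝓞 K)
  obtain ⟨A', B', N', h1', hN'⟩ :=
    FA.FieldClassBound.exists_double_coord hK hdz (by omega) hs' ((u⁻¹ : (𝓞 K)ˣ) : 𝓞 K)
  have huv : ((u : 𝓞 K) : K) * (((u⁻¹ : (𝓞 K)ˣ) : 𝓞 K) : K) = 1 := by
    rw [← map_mul (algebraMap (𝓞 K) K), ← Units.val_mul, mul_inv_cancel, Units.val_one, map_one]
  set φ : ℤ√(-(d : ℤ)) →+* K := Zsqrtd.lift ⟨s, by rw [← sq]; exact hs'⟩ with hφ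
  have hinj : Function.Injective φ := Zsqrtd.lift_injective _ fun n hn => by
    have : (0 : ℤ) < d := by omega
    nlinarith [mul_self_nonneg n]
  have hprod : (⟨A, B⟩ * ⟨A', B'⟩ : ℤ√(-(d : ℤ))) = ⟨4, 0⟩ := hinj (by
    rw [map_mul]
    simp only [hφ, Zsqrtd.lift_apply_apply]
    rw [← h1, ← h1']
    push_cast
    linear_combination 4 * huv)
  have hnorm : (A ^ 2 + d * B ^ 2) * (A' ^ 2 + d * B' ^ 2) = 16 := by
    have := congrArg Zsqrtd.norm hprod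
    rw [Zsqrtd.norm_mul] at this
    simp only [Zsqrtd.norm_def] at this
    linear_combination this
  have hBB : ∀ P Q P' Q' M' : ℤ, (P ^ 2 + d * Q ^ 2) * (P' ^ 2 + d * Q' ^ 2) = 16 →
      P' ^ 2 + (d : ℤ) * Q' ^ 2 = 4 * M' → Q = 0 := by
    intro P Q P' Q' M' h hM
    by_contra hQ
    have h7 : (7 : ℤ) ≤ d := by exact_mod_cast hd7
    have h2 : 0 < Q ^ 2 := by positivity
    have h3 : 7 ≤ P ^ 2 + (d : ℤ) * Q ^ 2 := by nlinarith [sq_nonneg P]
    have h4 : 0 < P' ^ 2 + (d : ℤ) * Q' ^ 2 := by nlinarith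
    have h5 : 4 ≤ P' ^ 2 + (d : ℤ) * Q' ^ 2 := by omega
    nlinarith
  have hB : B = 0 := hBB A B A' B' N' hnorm (by linear_combination hN')
  have hB' : B' = 0 := hBB A' B' A B N (by linear_combination hnorm) (by linear_combination hN)
  subst hB hB'
  obtain ⟨k, rfl⟩ : 2 ∣ A := Int.prime_two.dvd_of_dvd_pow (n := 2) ⟨2 * N, by linear_combination hN⟩
  obtain ⟨k', rfl⟩ : 2 ∣ A' :=
    Int.prime_two.dvd_of_dvd_pow (n := 2) ⟨2 * N', by linear_combination hN'⟩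
  have hk : k * k' = 1 := by
    have := congrArg Zsqrtd.re hprod
    simp [Zsqrtd.re_mul] at this
    linarith
  have huk : ((u : 𝓞 K) : K) = (k : K) := by
    push_cast at h1
    linear_combination h1 / 2
  rcases Int.eq_one_or_neg_one_of_mul_eq_one hk with rfl | rfl
  · exact Or.inl (RingOfIntegers.ext (by simpa using huk))
  · exact Or.inr (RingOfIntegers.ext (by simpa using huk))

/-- `y ^ n` is prime to `2 d`. -/
theorem coprime_of_odd (hd : Squarefree d) {n : ℕ} (hn : 2 ≤ n) {x y : ℤ} (hy : ¬ (2 : ℤ) ∣ y)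
    (h : x ^ 2 + d = y ^ n) : IsCoprime (y ^ n) (2 * (d : ℤ)) := by
  refine IsCoprime.mul_right ((Int.prime_two.coprime_iff_not_dvd.2 hy).symm.pow_left) ?_
  rw [Int.isCoprime_iff_gcd_eq_one]
  by_contra hne
  obtain ⟨p, hp, hpd⟩ := Nat.exists_prime_and_dvd hne
  have hpy : (p : ℤ) ∣ y ^ n := (Int.natCast_dvd_natCast.2 hpd).trans (Int.gcd_dvd_left _ _)
  have hpd' : (p : ℤ) ∣ d := (Int.natCast_dvd_natCast.2 hpd).trans (Int.gcd_dvd_right _ _)
  have hp' := Nat.prime_iff_prime_int.1 hp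
  have hpx : (p : ℤ) ∣ x ^ 2 := (dvd_add_left hpd').1 (h ▸ hpy)
  have h2 : (p : ℤ) ^ 2 ∣ (d : ℤ) := (dvd_add_right (pow_dvd_pow_of_dvd
    (hp'.dvd_of_dvd_pow hpx) 2)).1 (h ▸ (pow_dvd_pow_of_dvd (hp'.dvd_of_dvd_pow hpy) 2).trans
      (pow_dvd_pow y hn))
  rw [pow_two] at h2
  exact hp.ne_one (Nat.isUnit_iff.1 (hd p (Int.natCast_dvd_natCast.1 (by exact_mod_cast h2))))

/-- **A solution with odd `y` gives an even `a` with `im (a + √-d) ^ n = ± 1`.** -/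
theorem exists_even_param (hK : finrank ℚ K = 2) (hd : Squarefree d) (hd8 : d % 8 = 7)
    (hs : s ^ 2 = -(d : K)) {n : ℕ} (hn : Odd n) (hn3 : 3 ≤ n)
    (hcl : Nat.Coprime n (classNumber K)) {x y : ℤ} (hy : ¬ (2 : ℤ) ∣ y)
    (h : x ^ 2 + d = y ^ n) :
    ∃ a : ℤ, 2 ∣ a ∧ (((⟨a, 1⟩ : ℤ√(-(d : ℤ))) ^ n).im = 1 ∨
      ((⟨a, 1⟩ : ℤ√(-(d : ℤ))) ^ n).im = -1) := by
  obtain ⟨S, hS, hSS⟩ := FA.LebesgueNagell.exists_intRoot hs
  push_cast at hSS
  have hprod : ((x : 𝓞 K) + S) * ((x : 𝓞 K) - S) = (y : 𝓞 K) ^ n := by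
    have e : (x : 𝓞 K) ^ 2 + (d : 𝓞 K) = (y : 𝓞 K) ^ n := by
      exact_mod_cast congrArg (Int.cast : ℤ → 𝓞 K) h
    linear_combination e - hSS
  have hcop : IsCoprime ((x : 𝓞 K) + S) ((x : 𝓞 K) - S) := by
    obtain ⟨p, q, hpq⟩ := coprime_of_odd hd (by omega) hy h
    have e : (p : 𝓞 K) * (y : 𝓞 K) ^ n + (q : 𝓞 K) * (2 * (d : 𝓞 K)) = 1 := by
      exact_mod_cast congrArg (Int.cast : ℤ → 𝓞 K) hpq
    refine ⟨(p : 𝓞 K) * ((x : 𝓞 K) - S) - q * S, q * S, ?_⟩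
    linear_combination (p : 𝓞 K) * hprod + e - 2 * (q : 𝓞 K) * hSS
  have hy0 : (y : 𝓞 K) ≠ 0 := by
    intro h0
    rw [Int.cast_eq_zero] at h0
    exact hy (h0 ▸ dvd_zero _)
  set J : Ideal (𝓞 K) := Ideal.span {(y : 𝓞 K)} ⊔ Ideal.span {(x : 𝓞 K) + S} with hJ
  have hJn : J ^ n = Ideal.span {(x : 𝓞 K) + S} :=
    FA.LebesgueNagell.span_pow_eq (by omega) hprod hcop
  have hJ0 : J ∈ (Ideal (𝓞 K))⁰ := mem_nonZeroDivisors_iff_ne_zero.2 fun h0 => by
    have h2 : (y : 𝓞 K) ∈ J := Ideal.mem_sup_left (Ideal.mem_span_singleton_self _)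
    rw [h0, Ideal.zero_eq_bot, Ideal.mem_bot] at h2
    exact hy0 h2
  have hcls : ClassGroup.mk0 ⟨J, hJ0⟩ ^ n = 1 := by
    rw [← map_pow, ← Subtype.coe_eta (⟨J, hJ0⟩ ^ n : (Ideal (𝓞 K))⁰) (SetLike.coe_mem _),
      ClassGroup.mk0_eq_one_iff]
    exact ⟨⟨(x : 𝓞 K) + S, by rw [SubmonoidClass.coe_pow]; exact hJn⟩⟩
  have hone : ClassGroup.mk0 ⟨J, hJ0⟩ = 1 := orderOf_eq_one_iff.1 (Nat.eq_one_of_dvd_coprimes hcl
    (orderOf_dvd_of_pow_eq_one hcls) orderOf_dvd_card)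
  rw [ClassGroup.mk0_eq_one_iff] at hone
  obtain ⟨γ, hγ⟩ := hone.principal
  rw [Ideal.submodule_span_eq] at hγ
  rw [hγ, Ideal.span_singleton_pow] at hJn
  obtain ⟨u, hu⟩ := Ideal.span_singleton_eq_span_singleton.1 hJn
  -- the coordinates of twice `γ`
  have hdz : Squarefree (-(d : ℤ)) := Int.squarefree_natAbs.1 (by simpa using hd)
  have hs' : s ^ 2 = ((-(d : ℤ) : ℤ) : K) := by push_cast; exact hs
  obtain ⟨A, B, N, h1, hN⟩ := FA.FieldClassBound.exists_double_coord hK hdz (by omega) hs' γ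
  set φ : ℤ√(-(d : ℤ)) →+* K := Zsqrtd.lift ⟨s, by rw [← sq]; exact hs'⟩ with hφ
  have hinj : Function.Injective φ := Zsqrtd.lift_injective _ fun m hm => by
    have : (0 : ℤ) < d := by omega
    nlinarith [mul_self_nonneg m]
  have huK : ((γ : K)) ^ n * ((u : 𝓞 K) : K) = (x : K) + s := by
    have := congrArg (algebraMap (𝓞 K) K) hu
    rw [map_mul, map_pow, map_add, map_intCast] at this
    rw [← hS]
    exact this
  obtain ⟨σ, hσ, hpow⟩ : ∃ σ : ℤ, (σ = 1 ∨ σ = -1) ∧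
      (⟨A, B⟩ : ℤ√(-(d : ℤ))) ^ n = ((2 ^ n * σ : ℤ) : ℤ√(-(d : ℤ))) * ⟨x, 1⟩ := by
    rcases unit_eq hK hd (by omega) hs u with e | e <;> rw [e] at huK
    · refine ⟨1, Or.inl rfl, hinj ?_⟩
      rw [map_pow, map_mul, map_intCast]
      simp only [hφ, Zsqrtd.lift_apply_apply]
      rw [← h1, mul_pow]
      push_cast
      simp only [map_one, mul_one] at huK
      linear_combination (2 : K) ^ n * huK
    · refine ⟨-1, Or.inr rfl, hinj ?_⟩
      rw [map_pow, map_mul, map_intCast]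
      simp only [hφ, Zsqrtd.lift_apply_apply]
      rw [← h1, mul_pow]
      push_cast
      simp only [map_neg, map_one, mul_neg, mul_one] at huK
      linear_combination -(2 : K) ^ n * huK
  have hσ2 : σ ^ 2 = 1 := by rcases hσ with rfl | rfl <;> norm_num
  have hnorm : A ^ 2 + (d : ℤ) * B ^ 2 = 4 * y := by
    refine hn.strictMono_pow.injective (show (A ^ 2 + (d : ℤ) * B ^ 2) ^ n = (4 * y) ^ n from ?_)
    have h2 := FA.LebesgueNagell.norm_pow (⟨A, B⟩ : ℤ√(-(d : ℤ))) n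
    rw [hpow, Zsqrtd.re_mul, Zsqrtd.im_mul, Zsqrtd.re_intCast, Zsqrtd.im_intCast] at h2
    simp only [mul_zero, zero_mul, add_zero, mul_one] at h2
    rw [h2, mul_pow 4 y, ← h, show (4 : ℤ) ^ n = (2 ^ n) ^ 2 by
      rw [show (4 : ℤ) = 2 ^ 2 from rfl, ← pow_mul, ← pow_mul, mul_comm]]
    linear_combination ((2 : ℤ) ^ n) ^ 2 * (x ^ 2 + d) * hσ2
  -- both coordinates are even
  obtain ⟨⟨a, rfl⟩, b, rfl⟩ : 2 ∣ A ∧ 2 ∣ B := by
    have hd' : (d : ZMod 8) = 7 := by rw [← ZMod.natCast_mod, hd8]; rfl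
    have hy8 : (4 * y : ZMod 8) = 4 := by
      obtain ⟨t, rfl⟩ : ∃ t, y = 2 * t + 1 := ⟨y / 2, by omega⟩
      push_cast
      have h8 : (8 : ZMod 8) = 0 := rfl
      linear_combination (t : ZMod 8) * h8
    have e8 := congrArg (Int.cast : ℤ → ZMod 8) hnorm
    push_cast at e8
    rw [hd', hy8] at e8
    have key : ∀ p q : ZMod 8, p ^ 2 + 7 * q ^ 2 = 4 → 4 * p = 0 ∧ 4 * q = 0 := by decide
    obtain ⟨hA, hB⟩ := key _ _ e8
    have hev : ∀ z : ℤ, (4 * z : ZMod 8) = 0 → 2 ∣ z := fun z hz => by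
      have : ((4 * z : ℤ) : ZMod 8) = 0 := by push_cast; exact hz
      have := (ZMod.intCast_zmod_eq_zero_iff_dvd _ 8).1 this
      omega
    exact ⟨hev A hA, hev B hB⟩
  have hya : y = a ^ 2 + d * b ^ 2 := by linarith
  have hpow' : (⟨a, b⟩ : ℤ√(-(d : ℤ))) ^ n = ((σ : ℤ) : ℤ√(-(d : ℤ))) * ⟨x, 1⟩ := by
    have e2 : (⟨2 * a, 2 * b⟩ : ℤ√(-(d : ℤ))) = ((2 : ℤ) : ℤ√(-(d : ℤ))) * ⟨a, b⟩ :=
      Zsqrtd.ext (by simp) (by simp)
    rw [e2, mul_pow, Int.cast_mul, mul_assoc, ← Int.cast_pow] at hpow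
    have h2n : (2 : ℤ) ^ n ≠ 0 := pow_ne_zero n two_ne_zero
    have er := congrArg Zsqrtd.re hpow
    have ei := congrArg Zsqrtd.im hpow
    simp only [Zsqrtd.re_mul, Zsqrtd.im_mul, Zsqrtd.re_intCast, Zsqrtd.im_intCast, zero_mul,
      mul_zero, add_zero] at er ei
    refine Zsqrtd.ext ?_ ?_
    · simp only [Zsqrtd.re_mul, Zsqrtd.re_intCast, Zsqrtd.im_intCast, zero_mul, mul_zero, add_zero]
      exact mul_left_cancel₀ h2n er
    · simp only [Zsqrtd.im_mul, Zsqrtd.re_intCast, Zsqrtd.im_intCast, zero_mul, add_zero]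
      exact mul_left_cancel₀ h2n ei
  have him : ((⟨a, b⟩ : ℤ√(-(d : ℤ))) ^ n).im = σ := by
    rw [hpow', Zsqrtd.im_mul]; simp
  have hb : b = 1 ∨ b = -1 := Int.isUnit_iff.1 (isUnit_of_dvd_unit
    (him ▸ FA.LebesgueNagell.im_dvd_pow (⟨a, b⟩ : ℤ√(-(d : ℤ))) n)
    (Int.isUnit_iff.2 hσ))
  have ha : 2 ∣ a := by
    have hb2 : b ^ 2 = 1 := by rcases hb with rfl | rfl <;> norm_num
    rw [hb2, mul_one] at hya
    rcases Int.even_or_odd' a with ⟨t, rfl | rfl⟩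
    · exact dvd_mul_right _ _
    · exfalso
      apply hy
      rw [hya]
      ring_nf
      omega
  refine ⟨a, ha, ?_⟩
  rcases hb with rfl | rfl
  · rw [him]; exact hσ
  · rw [show (⟨a, 1⟩ : ℤ√(-(d : ℤ))) = star ⟨a, -1⟩ from Zsqrtd.ext rfl (by simp),
      ← star_pow, Zsqrtd.im_star, him]
    rcases hσ with rfl | rfl <;> simp

/-- **No solution with odd `y`.** -/
theorem no_odd_solution (hK : finrank ℚ K = 2) (hd : Squarefree d) (hd8 : d % 8 = 7)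
    (hs : s ^ 2 = -(d : K)) (hv : Odd (padicValNat 2 (d + 1))) {n : ℕ} (hn : 2 ≤ n)
    (hcl : Even n ∨ Nat.Coprime n (classNumber K)) {x y : ℤ} (hy : ¬ (2 : ℤ) ∣ y) :
    x ^ 2 + d ≠ y ^ n := by
  intro h
  rcases Nat.even_or_odd n with hev | hodd
  · -- a product of two factors
    obtain ⟨k, rfl⟩ := hev
    obtain ⟨Y, hY⟩ : ∃ Y, Y = y ^ k := ⟨_, rfl⟩
    have h' : (Y - x) * (Y + x) = d := by rw [hY]; linear_combination -h
    have hYo : ¬ (2 : ℤ) ∣ Y := fun h2 => hy (Int.prime_two.dvd_of_dvd_pow (hY ▸ h2))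
    have hd' : (d : ZMod 8) = 7 := by rw [← ZMod.natCast_mod, hd8]; rfl
    have e8 := congrArg (Int.cast : ℤ → ZMod 8) h'
    push_cast at e8
    rw [hd'] at e8
    have key : ∀ Y x : ZMod 8, (Y - x) * (Y + x) = 7 → 4 * Y = 0 := by decide
    have : ((4 * Y : ℤ) : ZMod 8) = 0 := by push_cast; exact key _ _ e8
    have := (ZMod.intCast_zmod_eq_zero_iff_dvd _ 8).1 this
    omega
  · have hcl' := hcl.resolve_left (Nat.not_even_iff_odd.2 hodd)
    obtain ⟨a, ha, him⟩ :=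
      exists_even_param hK hd hd8 hs hodd (by rcases hodd with ⟨k, rfl⟩; omega) hcl' hy h
    obtain ⟨m, rfl⟩ := hodd
    obtain ⟨e, o, ho, hde⟩ :=
      Nat.exists_eq_pow_mul_and_not_dvd (n := d + 1) (Nat.succ_ne_zero d) 2 (by norm_num)
    have he : padicValNat 2 (d + 1) = e := by
      rw [hde, padicValNat.mul (pow_ne_zero _ two_ne_zero) (fun h0 => ho (by rw [h0]; exact dvd_zero _)),
        padicValNat.prime_pow, padicValNat.eq_zero_of_not_dvd ho, add_zero]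
    rw [he] at hv
    have he3 : 3 ≤ e := by
      by_contra hlt
      interval_cases e <;> omega
    obtain ⟨h1, h2⟩ := im_pow_ne_of_odd_valuation hv he3 hde
      (Nat.not_even_iff_odd.1 fun hev => ho (even_iff_two_dvd.1 hev)) ha (m := m) (by omega)
    exact him.elim h1 h2

end FA.RamanujanNagell
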