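import Mathlib.NumberTheory.Zsqrtd.Basic
import Mathlib.Data.ZMod.Basic
import Mathlib.Tactic

/-!
# `x² + 7 = 2 ^ n`

An odd pair with `X² + 7 Y² = 2 ^ (m + 2)` is `± V m`, `± U m` for the sequences of `(1 + √-7) / 2`,
so `|U m| = 1`. Modulo `4` then `U m = -1` for odd `m > 1`; modulo `7` this leaves three classes of
`m` modulo `42`, and each has one member, by the `7`-adic expansion of `(1 + √-7) ^ (42 h)`.
-/

set_option autoImplicit false

noncomputable section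

namespace FA.RamanujanNagell

/-- The coefficient of `√-7` in twice `((1 + √-7) / 2) ^ k`. -/
def lucU : ℕ → ℤ
  | 0 => 0
  | 1 => 1
  | k + 2 => lucU (k + 1) - 2 * lucU k

/-- The rational part of twice `((1 + √-7) / 2) ^ k`. -/
def lucV : ℕ → ℤ
  | 0 => 2
  | 1 => 1
  | k + 2 => lucV (k + 1) - 2 * lucV k

theorem step : ∀ k, 2 * lucU (k + 1) = lucU k + lucV k ∧ 2 * lucV (k + 1) = lucV k - 7 * lucU k
  | 0 => by simp [lucU, lucV]
  | 1 => by simp [lucU, lucV]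
  | k + 2 => by
    have h1 := step k
    have h2 := step (k + 1)
    constructor <;> simp only [lucU, lucV] <;> linarith [h1.1, h1.2, h2.1, h2.2]

theorem lucV_odd : ∀ k, lucV (k + 1) % 2 = 1
  | 0 => by simp [lucV]
  | 1 => by simp [lucV]
  | k + 2 => by
    have := lucV_odd (k + 1)
    simp only [lucV] at *
    omega

theorem lucU_mod_four : ∀ k, lucU (k + 2) % 4 = if k % 2 = 0 then 1 else 3
  | 0 => by simp [lucU]
  | 1 => by simp [lucU]
  | k + 2 => by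
    have h1 := lucU_mod_four k
    have h2 := lucU_mod_four (k + 1)
    rw [lucU]
    rcases Nat.mod_two_eq_zero_or_one k with h | h
    · rw [if_pos h] at h1
      rw [if_neg (by omega)] at h2
      rw [if_pos (by omega), show k + 2 + 1 = k + 1 + 2 by omega]
      omega
    · rw [if_neg (by omega)] at h1
      rw [if_pos (by omega)] at h2
      rw [if_neg (by omega), show k + 2 + 1 = k + 1 + 2 by omega]
      omega

/-- The odd representations of `2 ^ (m + 2)` by `X² + 7 Y²`. -/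
theorem natAbs_eq : ∀ (m : ℕ) (X Y : ℤ), X % 2 = 1 → Y % 2 = 1 →
    X ^ 2 + 7 * Y ^ 2 = 2 ^ (m + 3) →
      X.natAbs = (lucV (m + 1)).natAbs ∧ Y.natAbs = (lucU (m + 1)).natAbs
  | 0, X, Y, hX, hY, h => by
    norm_num at h
    have h1 : Y ^ 2 < 2 ^ 2 := by nlinarith [sq_nonneg X]
    obtain ⟨hl, hu⟩ := abs_lt_of_sq_lt_sq' h1 two_pos.le
    have h2 : X ^ 2 < 3 ^ 2 := by nlinarith [sq_nonneg Y]
    obtain ⟨hl', hu'⟩ := abs_lt_of_sq_lt_sq' h2 three_pos.le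
    interval_cases Y <;> interval_cases X <;> simp_all [lucU, lucV]
  | m + 1, X, Y, hX, hY, h => by
    -- a sign of `Y` makes `X - Y` a multiple of four
    obtain ⟨Z, hZ, h4⟩ : ∃ Z, (Z = Y ∨ Z = -Y) ∧ (4 : ℤ) ∣ Z - X := by
      by_cases h4 : (4 : ℤ) ∣ Y - X
      · exact ⟨Y, Or.inl rfl, h4⟩
      · exact ⟨-Y, Or.inr rfl, by omega⟩
    have hZ2 : Z ^ 2 = Y ^ 2 := by rcases hZ with rfl | rfl <;> ring
    obtain ⟨B, hB⟩ := h4
    set A : ℤ := 2 * X + 7 * B with hA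
    have hB' : Z = X + 4 * B := by linarith
    have e : X ^ 2 + 7 * Z ^ 2 = 2 ^ (m + 4) := by rw [hZ2]; exact h
    have hAB : A ^ 2 + 7 * B ^ 2 = 2 ^ (m + 3) := by
      have e' : (2 : ℤ) * (A ^ 2 + 7 * B ^ 2) = 2 * 2 ^ (m + 3) := by
        rw [hA, ← pow_succ', ← e, hB']
        ring
      linarith
    have hB2 : B % 2 = 1 := by
      rcases Int.even_or_odd' B with ⟨b, hb | hb⟩
      · exfalso
        have e3 : (4 : ℤ) * ((X + 7 * b) ^ 2 + 7 * b ^ 2) = 4 * 2 ^ (m + 1) := by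
          rw [show (4 : ℤ) * 2 ^ (m + 1) = 2 ^ (m + 3) by ring, ← hAB, hA, hb]
          ring
        have e4 : (X + 7 * b) ^ 2 + 7 * b ^ 2 = 2 ^ (m + 1) := by linarith
        have e5 := congrArg (fun z : ℤ => (z : ZMod 2)) e4
        have hX2 : (X : ZMod 2) = 1 := (ZMod.intCast_eq_intCast_iff' X 1 2).2 (by omega)
        push_cast at e5
        rw [hX2, show (2 : ZMod 2) = 0 from rfl, zero_pow (by omega)] at e5
        revert e5
        generalize (b : ZMod 2) = t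
        revert t
        decide
      · omega
    obtain ⟨hAV, hBU⟩ := natAbs_eq m A B (by omega) hB2 hAB
    have hV2 := lucV_odd (m + 1)
    have hU2 : lucU (m + 1) % 2 = 1 := by omega
    obtain ⟨s1, s2⟩ := step (m + 1)
    constructor <;> rcases hZ with rfl | rfl <;>
      rcases Int.natAbs_eq_natAbs_iff.1 hAV with hA' | hA' <;>
      rcases Int.natAbs_eq_natAbs_iff.1 hBU with hB'' | hB'' <;> omega

/-- The sequences are the coordinates of the powers of `1 + √-7`. -/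
theorem pow_coords (k : ℕ) :
    ((⟨1, 1⟩ : ℤ√(-7)) ^ (k + 1)).re = 2 ^ k * lucV (k + 1) ∧
      ((⟨1, 1⟩ : ℤ√(-7)) ^ (k + 1)).im = 2 ^ k * lucU (k + 1) := by
  induction k with
  | zero => simp [lucU, lucV]
  | succ k ih =>
    obtain ⟨s1, s2⟩ := step (k + 1)
    rw [pow_succ, Zsqrtd.re_mul, Zsqrtd.im_mul, ih.1, ih.2]
    constructor
    · linear_combination -(2 : ℤ) ^ k * s2
    · linear_combination -(2 : ℤ) ^ k * s1

/-- Modulo `7` the powers of `1 + √-7` are `1 + k √-7`. -/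
theorem pow_mod_seven (k : ℕ) :
    (7 : ℤ) ∣ ((⟨1, 1⟩ : ℤ√(-7)) ^ k).re - 1 ∧ (7 : ℤ) ∣ ((⟨1, 1⟩ : ℤ√(-7)) ^ k).im - k := by
  induction k with
  | zero => simp
  | succ k ih =>
    rw [pow_succ, Zsqrtd.re_mul, Zsqrtd.im_mul]
    obtain ⟨⟨u, hu⟩, v, hv⟩ := ih
    exact ⟨⟨u - ((⟨1, 1⟩ : ℤ√(-7)) ^ k).im, by linear_combination hu⟩,
      u + v, by push_cast; linear_combination hu + hv⟩

/-- `w ≡ 1 + 7 ^ k B √-7` modulo `7 ^ (k + 1)`. -/
def Approx (k : ℕ) (B : ℤ) (w : ℤ√(-7)) : Prop :=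
  (7 : ℤ) ^ (k + 1) ∣ w.re - 1 ∧ (7 : ℤ) ^ (k + 1) ∣ w.im - 7 ^ k * B

theorem Approx.mul {k : ℕ} {B B' : ℤ} {w w' : ℤ√(-7)} (h : Approx k B w)
    (h' : Approx k B' w') : Approx k (B + B') (w * w') := by
  obtain ⟨⟨u, hu⟩, v, hv⟩ := h
  obtain ⟨⟨u', hu'⟩, v', hv'⟩ := h'
  have e : w.re = 1 + 7 ^ (k + 1) * u := by linarith
  have e' : w'.re = 1 + 7 ^ (k + 1) * u' := by linarith
  have f : w.im = 7 ^ k * B + 7 ^ (k + 1) * v := by linarith
  have f' : w'.im = 7 ^ k * B' + 7 ^ (k + 1) * v' := by linarith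
  constructor
  · refine ⟨u + u' + 7 ^ (k + 1) * u * u' - 7 ^ k * (B + 7 * v) * (B' + 7 * v'), ?_⟩
    rw [Zsqrtd.re_mul, e, e', f, f']
    ring
  · refine ⟨v + v' + u * (7 ^ k * B' + 7 ^ (k + 1) * v') +
      u' * (7 ^ k * B + 7 ^ (k + 1) * v), ?_⟩
    rw [Zsqrtd.im_mul, e, e', f, f']
    ring

theorem Approx.pow {k : ℕ} {B : ℤ} {w : ℤ√(-7)} (h : Approx k B w) :
    ∀ n : ℕ, Approx k (n * B) (w ^ n)
  | 0 => by simp [Approx]
  | n + 1 => by
    rw [pow_succ, Nat.cast_succ, add_one_mul]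
    exact (Approx.pow h n).mul h

theorem pow_seven_coords (a b : ℤ) :
    ((⟨a, b⟩ : ℤ√(-7)) ^ 7).re =
        a ^ 7 - 147 * a ^ 5 * b ^ 2 + 1715 * a ^ 3 * b ^ 4 - 2401 * a * b ^ 6 ∧
      ((⟨a, b⟩ : ℤ√(-7)) ^ 7).im =
        7 * a ^ 6 * b - 245 * a ^ 4 * b ^ 3 + 1029 * a ^ 2 * b ^ 5 - 343 * b ^ 7 := by
  simp [pow_succ, pow_zero]
  constructor <;> ring

theorem seven_dvd_pow_seven {k : ℕ} {a : ℤ} (h : (7 : ℤ) ^ (k + 1) ∣ a - 1) :
    (7 : ℤ) ^ (k + 2) ∣ a ^ 7 - 1 := by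
  obtain ⟨u, hu⟩ := h
  obtain ⟨v, hv⟩ : (7 : ℤ) ∣ a ^ 6 + a ^ 5 + a ^ 4 + a ^ 3 + a ^ 2 + a + 1 := by
    have h7 : (7 : ℤ) ∣ a - 1 := ⟨7 ^ k * u, by rw [hu]; ring⟩
    have : a ^ 6 + a ^ 5 + a ^ 4 + a ^ 3 + a ^ 2 + a + 1 =
        (a - 1) * (a ^ 5 + 2 * a ^ 4 + 3 * a ^ 3 + 4 * a ^ 2 + 5 * a + 6) + 7 := by ring
    rw [this]
    exact dvd_add (h7.mul_right _) dvd_rfl
  refine ⟨u * v, ?_⟩
  rw [show a ^ 7 - 1 = (a - 1) * (a ^ 6 + a ^ 5 + a ^ 4 + a ^ 3 + a ^ 2 + a + 1) by ring, hu, hv]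
  ring

theorem Approx.seventh {k : ℕ} (hk : 1 ≤ k) {B : ℤ} {w : ℤ√(-7)} (h : Approx k B w) :
    Approx (k + 1) B (w ^ 7) := by
  obtain ⟨a, b⟩ := w
  obtain ⟨ha, v, hv⟩ := h
  simp only at ha hv
  obtain ⟨u, hu⟩ := seven_dvd_pow_seven ha
  obtain ⟨t, ht⟩ := ha
  have fb : b = 7 ^ k * (B + 7 * v) := by linear_combination hv
  obtain ⟨e1, e2⟩ := pow_seven_coords a b
  obtain ⟨j, rfl⟩ : ∃ j, k = j + 1 := ⟨k - 1, by omega⟩
  refine ⟨⟨u + b * (B + 7 * v) * (-3 * a ^ 5 + 35 * a ^ 3 * b ^ 2 - 49 * a * b ^ 4), ?_⟩,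
    ⟨v + t * (a ^ 5 + a ^ 4 + a ^ 3 + a ^ 2 + a + 1) * b +
      b * 7 ^ j * (B + 7 * v) ^ 2 * (-35 * a ^ 4 + 147 * a ^ 2 * b ^ 2 - 49 * b ^ 4), ?_⟩⟩
  · rw [e1]
    linear_combination hu + (7 ^ 2 * b * (-3 * a ^ 5 + 35 * a ^ 3 * b ^ 2 - 49 * a * b ^ 4)) * fb
  · rw [e2]
    linear_combination (7 * (a ^ 5 + a ^ 4 + a ^ 3 + a ^ 2 + a + 1) * b) * ht + 7 * fb +
      (7 * b * (b + 7 ^ (j + 1) * (B + 7 * v)) * (-35 * a ^ 4 + 147 * a ^ 2 * b ^ 2 - 49 * b ^ 4)) *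
        fb

/-- The expansion of `(1 + √-7) ^ (42 · 7 ^ j)` and of `2 ^ (42 · 7 ^ j)`. -/
theorem approx_base : ∀ j : ℕ, Approx (j + 1) 6 ((⟨1, 1⟩ : ℤ√(-7)) ^ (42 * 7 ^ j)) ∧
    (7 : ℤ) ^ (j + 2) ∣ (2 : ℤ) ^ (42 * 7 ^ j) - 1
  | 0 => by
    refine ⟨?_, by norm_num⟩
    unfold Approx
    decide +kernel
  | j + 1 => by
    obtain ⟨h1, h2⟩ := approx_base j
    rw [show 42 * 7 ^ (j + 1) = 42 * 7 ^ j * 7 by ring, pow_mul _ (42 * 7 ^ j) 7,
      pow_mul _ (42 * 7 ^ j) 7]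
    exact ⟨h1.seventh (by omega), seven_dvd_pow_seven h2⟩

/-- No two solutions in a class modulo `42`. -/
theorem eq_of_mod {k k' : ℕ} (hU : lucU (k + 1) = -1) (hU' : lucU (k' + 1) = -1)
    (hle : k ≤ k') (hmod : k % 42 = k' % 42) : k = k' := by
  by_contra hne
  obtain ⟨d, hd⟩ : 42 ∣ k' - k := (Nat.modEq_iff_dvd' hle).1 hmod
  obtain ⟨j, h, h7, rfl⟩ := Nat.exists_eq_pow_mul_and_not_dvd (n := d) (by omega) 7 (by norm_num)
  obtain ⟨h1, h2⟩ := approx_base j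
  obtain ⟨⟨u, hu⟩, v, hv⟩ := h1.pow h
  obtain ⟨c, hc⟩ : (7 : ℤ) ^ (j + 2) ∣ (2 : ℤ) ^ (42 * 7 ^ j * h) - 1 := by
    rw [pow_mul]
    exact h2.trans (sub_one_dvd_pow_sub_one _ _)
  rw [← pow_mul] at hu hv
  have hk' : k' + 1 = (k + 1) + 42 * 7 ^ j * h := by
    rw [mul_assoc]; omega
  have e := (pow_coords k').2
  rw [hU'] at e
  rw [hk', pow_add _ (k + 1), Zsqrtd.im_mul, (pow_coords k).2, hU,
    show k' = k + 42 * 7 ^ j * h by omega, pow_add (2 : ℤ) k] at e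
  set P := ((⟨1, 1⟩ : ℤ√(-7)) ^ (k + 1)).re with hP
  set R := ((⟨1, 1⟩ : ℤ√(-7)) ^ (42 * 7 ^ j * h)).re
  set I := ((⟨1, 1⟩ : ℤ√(-7)) ^ (42 * 7 ^ j * h)).im
  set T := (2 : ℤ) ^ (42 * 7 ^ j * h)
  have hdvd : (7 : ℤ) ∣ P * (6 * h) := by
    refine (mul_dvd_mul_iff_left (pow_ne_zero (j + 1) (by norm_num : (7 : ℤ) ≠ 0))).1 ?_
    rw [← pow_succ]
    refine ⟨2 ^ k * u - P * v - 2 ^ k * c, ?_⟩
    linear_combination e + (2 : ℤ) ^ k * hu - P * hv - (2 : ℤ) ^ k * hc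
  obtain ⟨w, hw⟩ := (pow_mod_seven (k + 1)).1
  rw [← hP] at hw
  have h6 : (7 : ℤ) ∣ 6 * h := by
    obtain ⟨r, hr⟩ := hdvd
    exact ⟨r - w * (6 * h), by linear_combination hr - (6 * (h : ℤ)) * hw⟩
  omega

/-- **`U k = -1` only for `k = 3, 5, 13`.** -/
theorem eq_of_lucU_eq {k : ℕ} (hU : lucU (k + 1) = -1) : k = 2 ∨ k = 4 ∨ k = 12 := by
  have h7 : ((k + 1 : ℕ) : ZMod 7) = -(2 : ZMod 7) ^ k := by
    obtain ⟨-, hv⟩ := pow_mod_seven (k + 1)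
    rw [(pow_coords k).2, hU] at hv
    have := (ZMod.intCast_zmod_eq_zero_iff_dvd _ 7).mpr hv
    push_cast at this ⊢
    linear_combination -this
  have hper : (2 : ZMod 7) ^ k = 2 ^ (k % 3) := by
    conv_lhs => rw [← Nat.div_add_mod k 3, pow_add, pow_mul, show (2 : ZMod 7) ^ 3 = 1 from rfl,
      one_pow, one_mul]
  have hodd : k % 2 = 0 := by
    rcases k with _ | k
    · rfl
    · have := lucU_mod_four k
      rcases Nat.mod_two_eq_zero_or_one k with h | h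
      · rw [if_pos h] at this; rw [show k + 1 + 1 = k + 2 by omega] at hU; omega
      · omega
  have hres : ∀ r : Fin 42, (r : ℕ) % 2 = 0 →
      ((r : ℕ) + 1 : ZMod 7) = -(2 : ZMod 7) ^ ((r : ℕ) % 3) →
      (r : ℕ) = 2 ∨ (r : ℕ) = 4 ∨ (r : ℕ) = 12 := by decide +kernel
  have hk : k % 42 = 2 ∨ k % 42 = 4 ∨ k % 42 = 12 := by
    refine hres ⟨k % 42, Nat.mod_lt _ (by norm_num)⟩ (by simp only; omega) ?_
    simp only
    rw [Nat.mod_mod_of_dvd _ (by norm_num : 3 ∣ 42), ← hper]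
    push_cast at h7
    rw [← h7]
    congr 1
    conv_rhs => rw [← Nat.div_add_mod k 42]
    push_cast
    rw [show (42 : ZMod 7) = 0 from rfl, zero_mul, zero_add]
  rcases hk with hk | hk | hk <;>
  · refine (fun {r : ℕ} (hr : lucU (r + 1) = -1) (hlt : r < 42) (hm : k % 42 = r) => ?_ :
      ∀ {r : ℕ}, lucU (r + 1) = -1 → r < 42 → k % 42 = r → _) (by decide +kernel) (by norm_num) hk
    have hrk : r ≤ k := hm ▸ Nat.mod_le _ _
    have := eq_of_mod hr hU hrk (by rw [Nat.mod_eq_of_lt hlt, hm])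
    omega

/-- **The theorem of Ramanujan and Nagell.** -/
theorem two_pow_iff (x n : ℕ) :
    x ^ 2 + 7 = 2 ^ n ↔ (x, n) ∈ ({(1, 3), (3, 4), (5, 5), (11, 7), (181, 15)} : Finset (ℕ × ℕ)) := by
  constructor
  swap
  · intro h
    simp only [Finset.mem_insert, Finset.mem_singleton, Prod.mk.injEq] at h
    rcases h with ⟨rfl, rfl⟩ | ⟨rfl, rfl⟩ | ⟨rfl, rfl⟩ | ⟨rfl, rfl⟩ | ⟨rfl, rfl⟩ <;> norm_num
  intro h
  have hn : 3 ≤ n := by
    by_contra hn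
    interval_cases n <;> omega
  rcases Nat.even_or_odd' n with ⟨r, rfl | rfl⟩
  · -- the difference of two squares is seven
    rw [pow_mul'] at h
    have hlt : x < 2 ^ r := lt_of_pow_lt_pow_left' 2 (by omega)
    obtain ⟨d, hd⟩ := Nat.exists_eq_add_of_lt hlt
    rw [hd] at h
    have hd7 : (d + 1) * (2 * x + d + 1) = 7 := by
      have : x ^ 2 + 7 = x ^ 2 + (d + 1) * (2 * x + d + 1) := h.trans (by ring)
      omega
    have hd0 : d < 7 := by nlinarith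
    have hx : x ≤ 3 := by nlinarith
    interval_cases d <;> interval_cases x <;> simp at hd7
    obtain rfl : r = 2 := Nat.pow_right_injective le_rfl (show 2 ^ r = 2 ^ 2 by omega)
    simp
  · obtain ⟨s, rfl⟩ : ∃ s, r = s + 1 := ⟨r - 1, by omega⟩
    have hx : (x : ℤ) % 2 = 1 := by
      have h2 : 2 ∣ x ^ 2 + 7 := h ▸ dvd_pow_self 2 (by omega)
      rcases Nat.even_or_odd' x with ⟨y, rfl | rfl⟩
      · exfalso
        ring_nf at h2
        omega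
      · omega
    have he : (x : ℤ) ^ 2 + 7 * 1 ^ 2 = 2 ^ (2 * s + 3) := by
      rw [one_pow, mul_one, show 2 * s + 3 = 2 * (s + 1) + 1 by ring]
      exact_mod_cast h
    obtain ⟨hX, hY⟩ := natAbs_eq (2 * s) x 1 hx rfl he
    rcases Int.natAbs_eq_natAbs_iff.1 hY with hU | hU
    · rcases Nat.eq_zero_or_pos s with rfl | hs
      · norm_num at h ⊢
        have : x = 1 := by nlinarith
        simp [this]
      · exfalso
        have := lucU_mod_four (2 * s - 1)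
        rw [if_neg (by omega), show 2 * s - 1 + 2 = 2 * s + 1 by omega] at this
        omega
    · rcases eq_of_lucU_eq (k := 2 * s) (by omega) with h2 | h4 | h12
      · obtain rfl : s = 1 := by omega
        obtain rfl : x = 5 := by norm_num [lucV] at hX; omega
        simp
      · obtain rfl : s = 2 := by omega
        obtain rfl : x = 11 := by norm_num [lucV] at hX; omega
        simp
      · obtain rfl : s = 6 := by omega
        obtain rfl : x = 181 := by norm_num [lucV] at hX; omega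
        simp

end FA.RamanujanNagell

end
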